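import Fermat.Agent.Jac.Data

/-!
# The two charts over an algebraically closed field

Rational points and elementary properties of the charts over such a field.
-/

set_option autoImplicit false

universe u

open scoped Pointwise TensorProduct

namespace Fermat.Agent.Jac

variable {k : Type u} [Field k] (m : CurveModel k)

namespace CurveModel

section General

variable (A : Type u) [CommRing A] [Algebra k A]

/-- Restriction from the first chart as an algebra map. -/
noncomputable def aι0 : m.R0 A →ₐ[A] m.R01 A := Algebra.TensorProduct.map (AlgHom.id A A) m.i0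

/-- Restriction from the second chart as an algebra map. -/
noncomputable def aι1 : m.R1 A →ₐ[A] m.R01 A := Algebra.TensorProduct.map (AlgHom.id A A) m.i1

variable {A}

/-- Evaluation at a point of the first chart as an algebra map. -/
noncomputable def aev0 (φ : m.B0 →ₐ[k] A) : m.R0 A →ₐ[A] A :=
  Algebra.TensorProduct.lift (AlgHom.id A A) φ fun _ _ => Commute.all _ _

/-- Evaluation at a point of the second chart as an algebra map. -/
noncomputable def aev1 (φ : m.B1 →ₐ[k] A) : m.R1 A →ₐ[A] A :=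
  Algebra.TensorProduct.lift (AlgHom.id A A) φ fun _ _ => Commute.all _ _

theorem aev0_tmul (φ : m.B0 →ₐ[k] A) (a : A) (b : m.B0) : m.aev0 φ (a ⊗ₜ b) = a * φ b :=
  Algebra.TensorProduct.lift_tmul _ _ _ _ _

variable (A)

theorem ι0_tA_mul_ι1_sA : m.ι0 A (m.tA A) * m.ι1 A (m.sA A) = 1 := by
  simp [ι0, ι1, tA, sA, Algebra.TensorProduct.one_def, m.t_mul_s]

theorem isUnit_ι0_tA : IsUnit (m.ι0 A (m.tA A)) :=
  IsUnit.of_mul_eq_one _ (m.ι0_tA_mul_ι1_sA A)

theorem isUnit_ι1_sA : IsUnit (m.ι1 A (m.sA A)) :=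
  IsUnit.of_mul_eq_one _ ((mul_comm _ _).trans (m.ι0_tA_mul_ι1_sA A))

theorem surj0A (x : m.R01 A) :
    ∃ (n : ℕ) (y : m.R0 A), m.ι0 A y = m.ι0 A (m.tA A) ^ n * x := by
  induction x using TensorProduct.induction_on with
  | zero => exact ⟨0, 0, by simp⟩
  | tmul a b =>
    obtain ⟨n, y, hy⟩ := m.surj0 b
    exact ⟨n, a ⊗ₜ y, by simp [ι0, tA, hy]⟩
  | add x z hx hz =>
    obtain ⟨n, y, hy⟩ := hx
    obtain ⟨l, w, hw⟩ := hz
    refine ⟨n + l, m.tA A ^ l * y + m.tA A ^ n * w, ?_⟩
    rw [map_add, map_mul, map_mul, map_pow, map_pow, hy, hw, pow_add]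
    ring

theorem surj1A (x : m.R01 A) :
    ∃ (n : ℕ) (y : m.R1 A), m.ι1 A y = m.ι1 A (m.sA A) ^ n * x := by
  induction x using TensorProduct.induction_on with
  | zero => exact ⟨0, 0, by simp⟩
  | tmul a b =>
    obtain ⟨n, y, hy⟩ := m.surj1 b
    exact ⟨n, a ⊗ₜ y, by simp [ι1, sA, hy]⟩
  | add x z hx hz =>
    obtain ⟨n, y, hy⟩ := hx
    obtain ⟨l, w, hw⟩ := hz
    refine ⟨n + l, m.sA A ^ l * y + m.sA A ^ n * w, ?_⟩
    rw [map_add, map_mul, map_mul, map_pow, map_pow, hy, hw, pow_add]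
    ring

theorem finiteType0 : Algebra.FiniteType k m.B0 := by
  have h := (RingHom.Finite.finiteType m.finite0).comp
    (RingHom.finiteType_algebraMap.2 (inferInstance : Algebra.FiniteType k (Polynomial k)))
  rw [show (Polynomial.aeval (R := k) m.t).toRingHom.comp (algebraMap k (Polynomial k)) =
    algebraMap k m.B0 from RingHom.ext fun a => (Polynomial.aeval m.t).commutes a] at h
  exact RingHom.finiteType_algebraMap.1 h

theorem finiteType1 : Algebra.FiniteType k m.B1 := by
  have h := (RingHom.Finite.finiteType m.finite1).comp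
    (RingHom.finiteType_algebraMap.2 (inferInstance : Algebra.FiniteType k (Polynomial k)))
  rw [show (Polynomial.aeval (R := k) m.s).toRingHom.comp (algebraMap k (Polynomial k)) =
    algebraMap k m.B1 from RingHom.ext fun a => (Polynomial.aeval m.s).commutes a] at h
  exact RingHom.finiteType_algebraMap.1 h

end General

variable (K : Type u) [Field K] [Algebra k K]

theorem ι1_injective : Function.Injective (m.ι1 K) :=
  Module.Flat.lTensor_preserves_injective_linearMap (M := K) m.i1.toLinearMap m.i1_injective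

variable {K} [IsAlgClosed K]

/-- A maximal ideal of a chart is a point. -/
theorem exists_point0 (𝔭 : Ideal (m.R0 K)) [𝔭.IsMaximal] :
    ∃ φ : m.B0 →ₐ[k] K, RingHom.ker (m.ev0 φ) = 𝔭 := by
  have := m.finiteType0
  let _ := Ideal.Quotient.field 𝔭
  have : Algebra.FiniteType K (m.R0 K ⧸ 𝔭) :=
    Algebra.FiniteType.of_surjective (Ideal.Quotient.mkₐ K 𝔭) Ideal.Quotient.mk_surjective
  have : Module.Finite K (m.R0 K ⧸ 𝔭) := finite_of_finite_type_of_isJacobsonRing K (m.R0 K ⧸ 𝔭)
  let e : (m.R0 K ⧸ 𝔭) ≃ₐ[K] K := (AlgEquiv.ofBijective (Algebra.ofId K (m.R0 K ⧸ 𝔭))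
    IsAlgClosed.algebraMap_bijective_of_isIntegral).symm
  refine ⟨((e.toAlgHom.comp (Ideal.Quotient.mkₐ K 𝔭)).restrictScalars k).comp
    Algebra.TensorProduct.includeRight, ?_⟩
  have h : m.aev0 (((e.toAlgHom.comp (Ideal.Quotient.mkₐ K 𝔭)).restrictScalars k).comp
      Algebra.TensorProduct.includeRight) = e.toAlgHom.comp (Ideal.Quotient.mkₐ K 𝔭) :=
    Algebra.TensorProduct.ext (Subsingleton.elim _ _) (AlgHom.ext fun b => by
      simp [aev0])
  ext x
  show m.aev0 _ x = 0 ↔ _
  rw [h]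
  simp [Ideal.Quotient.eq_zero_iff_mem]

/-- A maximal ideal of a chart is a point. -/
theorem exists_point1 (𝔭 : Ideal (m.R1 K)) [𝔭.IsMaximal] :
    ∃ φ : m.B1 →ₐ[k] K, RingHom.ker (m.ev1 φ) = 𝔭 := by
  have := m.finiteType1
  let _ := Ideal.Quotient.field 𝔭
  have : Algebra.FiniteType K (m.R1 K ⧸ 𝔭) :=
    Algebra.FiniteType.of_surjective (Ideal.Quotient.mkₐ K 𝔭) Ideal.Quotient.mk_surjective
  have : Module.Finite K (m.R1 K ⧸ 𝔭) := finite_of_finite_type_of_isJacobsonRing K (m.R1 K ⧸ 𝔭)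
  let e : (m.R1 K ⧸ 𝔭) ≃ₐ[K] K := (AlgEquiv.ofBijective (Algebra.ofId K (m.R1 K ⧸ 𝔭))
    IsAlgClosed.algebraMap_bijective_of_isIntegral).symm
  refine ⟨((e.toAlgHom.comp (Ideal.Quotient.mkₐ K 𝔭)).restrictScalars k).comp
    Algebra.TensorProduct.includeRight, ?_⟩
  have h : m.aev1 (((e.toAlgHom.comp (Ideal.Quotient.mkₐ K 𝔭)).restrictScalars k).comp
      Algebra.TensorProduct.includeRight) = e.toAlgHom.comp (Ideal.Quotient.mkₐ K 𝔭) :=
    Algebra.TensorProduct.ext (Subsingleton.elim _ _) (AlgHom.ext fun b => by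
      simp [aev1])
  ext x
  show m.aev1 _ x = 0 ↔ _
  rw [h]
  simp [Ideal.Quotient.eq_zero_iff_mem]

omit [IsAlgClosed K] in
/-- Nonzero functions on the first chart do not vanish at some rational point. -/
theorem exists_rational_point [IsAlgClosed k] {f : m.R0 K} (hf : f ≠ 0) :
    ∃ q : m.B0 →ₐ[k] k, f ∉ RingHom.ker (m.ev0 ((Algebra.ofId k K).comp q)) := by
  classical
  let b := Module.Basis.ofVectorSpace k K
  let e := b.baseChange m.B0
  obtain ⟨g, rfl⟩ := TensorProduct.eq_repr_basis_left b f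
  have hg0 : g ≠ 0 := fun h => hf (by rw [h, Finsupp.sum_zero_index])
  obtain ⟨i, hi⟩ := Finsupp.ne_iff.1 hg0
  have := m.finiteType0
  have := m.domain01 k
  have : IsDomain m.B01 :=
    (Algebra.TensorProduct.lid k m.B01).symm.toRingEquiv.toMulEquiv.isDomain_iff.2 this
  have : IsDomain m.B0 := (Function.Injective.isDomain m.i0.toRingHom m.i0_injective)
  obtain ⟨q, hq⟩ : ∃ q : m.B0 →ₐ[k] k, q (g i) ≠ 0 := by
    by_contra h
    push Not at h
    have : IsJacobsonRing m.B0 := isJacobsonRing_of_finiteType (A := k)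
    have hj : Ring.jacobson m.B0 = ⊥ := by
      rw [← Ideal.jacobson_bot]
      exact IsJacobsonRing.out' _ Ideal.isPrime_bot.isRadical
    refine hi ?_
    have hmem : g i ∈ Ring.jacobson m.B0 := by
      rw [Ring.jacobson_eq_sInf_isMaximal, Submodule.mem_sInf]
      intro (𝔭 : Ideal m.B0) (h𝔭 : 𝔭.IsMaximal)
      let _ := Ideal.Quotient.field 𝔭
      have : Module.Finite k (m.B0 ⧸ 𝔭) := finite_of_finite_type_of_isJacobsonRing k (m.B0 ⧸ 𝔭)
      let e : (m.B0 ⧸ 𝔭) ≃ₐ[k] k := (AlgEquiv.ofBijective (Algebra.ofId k (m.B0 ⧸ 𝔭))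
        IsAlgClosed.algebraMap_bijective_of_isIntegral).symm
      have := h (e.toAlgHom.comp (Ideal.Quotient.mkₐ k 𝔭))
      simpa [Ideal.Quotient.eq_zero_iff_mem] using this
    rw [hj] at hmem
    simpa using hmem
  refine ⟨q, fun h => hq ?_⟩
  have h' : m.aev0 ((Algebra.ofId k K).comp q) (g.sum fun i x => b i ⊗ₜ[k] x) = 0 := h
  rw [map_finsuppSum] at h'
  have hs : (g.mapRange q (map_zero q)).sum (fun j x => x • b j) = 0 := by
    rw [Finsupp.sum_mapRange_index (h := fun j (x : k) => x • b j) (fun j => zero_smul k _), ← h']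
    refine Finsupp.sum_congr fun j _ => ?_
    rw [aev0_tmul, Algebra.smul_def, mul_comm]
    rfl
  have := congrArg (fun c => c i) (linearIndependent_iff.1 b.linearIndependent _ hs)
  simpa using this

end CurveModel

end Fermat.Agent.Jac
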