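import Mathlib

/-!
# One chart of a curve seen from the other

Algebra of a ring `R`, a localisation `S` of it at one element, a second ring `R'` mapping to `S`,
and invertible modules over them, at a rational point of `R`.
-/

set_option autoImplicit false

universe u

open scoped Pointwise TensorProduct

namespace Fermat.Agent.Jac

/-- The fibre of an invertible module at a surjective evaluation is a line. -/
theorem exists_fibre {R M K : Type u} [CommRing R] [Field K] [AddCommGroup M] [Module R M]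
    [Module.Invertible R M] (π : R →+* K) (hπ : Function.Surjective π) :
    ∃ χ : M →ₛₗ[π] K, Function.Surjective χ ∧
      ∀ x, χ x = 0 ↔ x ∈ RingHom.ker π • (⊤ : Submodule R M) := by
  have hmax : (RingHom.ker π).IsMaximal := RingHom.ker_isMaximal_of_surjective π hπ
  let _ := Ideal.Quotient.field (RingHom.ker π)
  obtain ⟨e⟩ : Nonempty ((R ⧸ RingHom.ker π) ⊗[R] M ≃ₗ[R ⧸ RingHom.ker π] R ⧸ RingHom.ker π) :=
    Module.Invertible.free_iff_linearEquiv.mp inferInstance
  let ρ : (R ⧸ RingHom.ker π) ≃+* K := RingHom.quotientKerEquivOfSurjective hπ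
  refine ⟨⟨⟨fun x => ρ (e (1 ⊗ₜ x)), fun x y => by simp [TensorProduct.tmul_add]⟩, fun r x => ?_⟩,
    ?_, fun x => ?_⟩
  · show ρ (e (1 ⊗ₜ (r • x))) = π r • ρ (e (1 ⊗ₜ x))
    rw [TensorProduct.tmul_smul,
      ← IsScalarTower.algebraMap_smul (R ⧸ RingHom.ker π) r ((1 : R ⧸ RingHom.ker π) ⊗ₜ[R] x),
      map_smul, smul_eq_mul, smul_eq_mul, map_mul]
    rfl
  · intro a
    obtain ⟨z, hz⟩ := e.surjective (ρ.symm a)
    obtain ⟨x, hx⟩ := TensorProduct.mk_surjective R M (R ⧸ RingHom.ker π)
      Ideal.Quotient.mk_surjective z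
    exact ⟨x, by
      show ρ (e (1 ⊗ₜ x)) = a
      rw [show (1 : R ⧸ RingHom.ker π) ⊗ₜ[R] x = z from hx, hz, ρ.apply_symm_apply]⟩
  · show ρ (e (1 ⊗ₜ x)) = 0 ↔ _
    rw [map_eq_zero_iff _ ρ.injective, map_eq_zero_iff _ e.injective,
      ← (TensorProduct.quotTensorEquivQuotSMul M (RingHom.ker π)).map_eq_zero_iff,
      show (1 : R ⧸ RingHom.ker π) = Ideal.Quotient.mk _ (1 : R) from (map_one _).symm,
      TensorProduct.quotTensorEquivQuotSMul_mk_tmul, one_smul,
      Submodule.Quotient.mk_eq_zero]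

/-- An invertible module over a domain embeds into it. -/
theorem exists_injective_functional {R M : Type u} [CommRing R] [IsDomain R] [AddCommGroup M]
    [Module R M] [Module.Invertible R M] : ∃ ψ : M →ₗ[R] R, Function.Injective ψ := by
  obtain ⟨I, ⟨e⟩⟩ := Module.Invertible.exists_linearEquiv_ideal R M
  exact ⟨I.subtype.comp e.toLinearMap, Subtype.val_injective.comp e.injective⟩

/-- Every element of an invertible module over a domain divides the module up to a scalar. -/
theorem exists_smul_eq {R M : Type u} [CommRing R] [IsDomain R] [AddCommGroup M] [Module R M]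
    [Module.Invertible R M] {x : M} (hx : x ≠ 0) :
    ∃ f : R, f ≠ 0 ∧ ∀ m : M, ∃ r : R, f • m = r • x := by
  obtain ⟨ψ, hψ⟩ := exists_injective_functional (R := R) (M := M)
  refine ⟨ψ x, fun h => hx (hψ (h.trans (map_zero ψ).symm)), fun m => ⟨ψ m, hψ ?_⟩⟩
  rw [map_smul, map_smul, smul_eq_mul, smul_eq_mul, mul_comm]

variable {R R' S : Type u} [CommRing R] [CommRing R'] [CommRing S]
variable {M M' T : Type u} [AddCommGroup M] [AddCommGroup M'] [AddCommGroup T]
variable [Module R M] [Module R' M'] [Module S T]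

/-- Restriction maps with spanning image are injective on invertible modules over domains. -/
theorem injective_of_span {ι : R →+* S} (hι : Function.Injective ι) [IsDomain R]
    [Module.Invertible R M] [Module.Invertible S T] (res : M →ₛₗ[ι] T)
    (hspan : Submodule.span S (Set.range res) = ⊤) : Function.Injective res := by
  refine (injective_iff_map_eq_zero res).2 fun x hx => by_contra fun h0 => ?_
  obtain ⟨f, hf, hfm⟩ := exists_smul_eq (R := R) h0
  refine hf (hι ?_)
  rw [map_zero]
  refine FaithfulSMul.eq_of_smul_eq_smul (M := S) (α := T) fun y => ?_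
  rw [zero_smul]
  have hy : y ∈ Submodule.span S (Set.range res) := hspan ▸ Submodule.mem_top
  induction hy using Submodule.span_induction with
  | mem y hy =>
    obtain ⟨m, rfl⟩ := hy
    obtain ⟨r, hr⟩ := hfm m
    rw [← res.map_smulₛₗ, hr, res.map_smulₛₗ, hx, smul_zero]
  | zero => exact smul_zero _
  | add y z _ _ hy hz => rw [smul_add, hy, hz, add_zero]
  | smul c y _ hy => rw [smul_comm, hy, smul_zero]

/-- After multiplying by a power of the inverted element, everything comes from the chart. -/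
theorem exists_res_eq_pow_smul {ι : R →+* S} {t : R}
    (hsurj : ∀ x : S, ∃ (n : ℕ) (y : R), ι y = ι t ^ n * x) (res : M →ₛₗ[ι] T)
    (hspan : Submodule.span S (Set.range res) = ⊤) (y : T) :
    ∃ (n : ℕ) (m : M), res m = ι t ^ n • y := by
  have hy : y ∈ Submodule.span S (Set.range res) := hspan ▸ Submodule.mem_top
  induction hy using Submodule.span_induction with
  | mem y hy =>
    obtain ⟨m, rfl⟩ := hy
    exact ⟨0, m, by rw [pow_zero, one_smul]⟩
  | zero => exact ⟨0, 0, by rw [map_zero, smul_zero]⟩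
  | add y z _ _ hy hz =>
    obtain ⟨n, a, ha⟩ := hy
    obtain ⟨l, b, hb⟩ := hz
    refine ⟨n + l, t ^ l • a + t ^ n • b, ?_⟩
    rw [map_add, res.map_smulₛₗ, res.map_smulₛₗ, ha, hb, map_pow, map_pow, smul_smul, smul_smul,
      ← pow_add, ← pow_add, smul_add, add_comm l n]
  | smul c y _ hy =>
    obtain ⟨n, a, ha⟩ := hy
    obtain ⟨l, b, hb⟩ := hsurj c
    refine ⟨n + l, b • a, ?_⟩
    rw [res.map_smulₛₗ, ha, hb, smul_smul, smul_smul]
    congr 1
    rw [pow_add]
    ring

section Residue

variable {K : Type u} [Field K] [Algebra K R] [Algebra K R'] [Algebra K S]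
variable (ι : R →ₐ[K] S) (ι' : R' →ₐ[K] S) {t : R} (φ : R →ₐ[K] K)

/-- Away from the inverted element a rational point stays rational on the other chart. -/
theorem residue_of_ne_top (hsurj : ∀ x : S, ∃ (n : ℕ) (y : R), ι y = ι t ^ n * x)
    (hunit : IsUnit (ι t)) (h : (RingHom.ker φ).map ι ≠ ⊤) :
    (∀ x : S, ∃ a : K, x - algebraMap K S a ∈ (RingHom.ker φ).map ι) ∧
      ∀ x : R', ∃ a : K, x - algebraMap K R' a ∈ ((RingHom.ker φ).map ι).comap ι' := by
  have hr : ∀ x : R, ι x - algebraMap K S (φ x) ∈ (RingHom.ker φ).map ι := fun x => by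
    rw [← ι.commutes, ← map_sub]
    exact Ideal.mem_map_of_mem ι (by simp [RingHom.mem_ker])
  have hS : ∀ x : S, ∃ a : K, x - algebraMap K S a ∈ (RingHom.ker φ).map ι := fun x => by
    obtain ⟨n, y, hy⟩ := hsurj x
    have ht : φ t ≠ 0 := fun h0 => h (Ideal.eq_top_of_isUnit_mem _
      (Ideal.mem_map_of_mem ι ((RingHom.mem_ker).2 h0)) hunit)
    refine ⟨φ y / φ t ^ n, ?_⟩
    have h1 := sub_mem (hr y)
      (Ideal.mul_mem_right x _ (hr (t ^ n)))
    rw [map_pow, map_pow, map_pow, hy] at h1
    have h2 : algebraMap K S (φ t ^ n)⁻¹ *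
        (ι t ^ n * x - algebraMap K S (φ y) - (ι t ^ n - algebraMap K S (φ t) ^ n) * x)
        = x - algebraMap K S (φ y / φ t ^ n) := by
      have hc : algebraMap K S (φ t ^ n)⁻¹ * algebraMap K S (φ t) ^ n = 1 := by
        rw [← map_pow (algebraMap K S), ← map_mul, inv_mul_cancel₀ (pow_ne_zero n ht), map_one]
      have hd : algebraMap K S (φ y / φ t ^ n) =
          algebraMap K S (φ t ^ n)⁻¹ * algebraMap K S (φ y) := by
        rw [← map_mul, inv_mul_eq_div]
      rw [hd]
      linear_combination x * hc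
    rw [← h2]
    exact Ideal.mul_mem_left _ _ h1
  refine ⟨hS, fun x => ?_⟩
  obtain ⟨a, ha⟩ := hS (ι' x)
  exact ⟨a, by rw [Ideal.mem_comap, map_sub, AlgHom.commutes]; exact ha⟩

/-- Elements vanishing at a point on the overlap vanish there on the other chart. -/
theorem mem_smul_of_res_mem [Module.Invertible R' M'] [Module.Invertible S T]
    (hsurj : ∀ x : S, ∃ (n : ℕ) (y : R), ι y = ι t ^ n * x) (hunit : IsUnit (ι t))
    (res' : M' →ₛₗ[(ι' : R' →+* S)] T) (hspan' : Submodule.span S (Set.range res') = ⊤) {x : M'}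
    (hx : res' x ∈ (RingHom.ker φ).map ι • (⊤ : Submodule S T)) :
    x ∈ ((RingHom.ker φ).map ι).comap ι' • (⊤ : Submodule R' M') := by
  set 𝔮 := (RingHom.ker φ).map ι with h𝔮
  by_cases h : 𝔮 = ⊤
  · simp [h]
  obtain ⟨hS, hR'⟩ := residue_of_ne_top ι ι' φ hsurj hunit h
  let π' : R' →+* S ⧸ 𝔮 := (Ideal.Quotient.mk 𝔮).comp (ι' : R' →+* S)
  have : Nontrivial (S ⧸ 𝔮) := Ideal.Quotient.nontrivial_iff.2 h
  have hπ : Function.Surjective ((Ideal.Quotient.mk 𝔮).comp (algebraMap K S)) := fun z => by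
    obtain ⟨x, rfl⟩ := Ideal.Quotient.mk_surjective z
    obtain ⟨a, ha⟩ := hS x
    exact ⟨a, (Ideal.Quotient.eq.2 ha).symm⟩
  let ρ : K ≃+* S ⧸ 𝔮 := RingEquiv.ofBijective _ ⟨RingHom.injective _, hπ⟩
  have hker : RingHom.ker ((ρ.symm : S ⧸ 𝔮 →+* K).comp (Ideal.Quotient.mk 𝔮)) = 𝔮 := by
    ext z
    simp [RingHom.mem_ker, Ideal.Quotient.eq_zero_iff_mem]
  have hker' : RingHom.ker ((ρ.symm : S ⧸ 𝔮 →+* K).comp π') = 𝔮.comap ι' := by
    ext z
    simp [π', RingHom.mem_ker, Ideal.Quotient.eq_zero_iff_mem]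
  have hs' : Function.Surjective ((ρ.symm : S ⧸ 𝔮 →+* K).comp π') := fun a =>
    ⟨algebraMap K R' a, by
      show ρ.symm (Ideal.Quotient.mk 𝔮 (ι' (algebraMap K R' a))) = a
      rw [AlgHom.commutes, RingEquiv.symm_apply_eq]
      rfl⟩
  obtain ⟨χ, hχs, hχ⟩ := exists_fibre (M := T) ((ρ.symm : S ⧸ 𝔮 →+* K).comp (Ideal.Quotient.mk 𝔮))
    (ρ.symm.surjective.comp Ideal.Quotient.mk_surjective)
  obtain ⟨χ', hχs', hχ'⟩ := exists_fibre (M := M') _ hs'
  rw [hker] at hχ
  rw [hker'] at hχ'
  rw [← hχ']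
  obtain ⟨e, he⟩ := hχs' 1
  have hlin : ∀ y, χ (res' y) = χ' y * χ (res' e) := fun y => by
    obtain ⟨r, hr⟩ := hs' (χ' y)
    have hd : χ' (y - r • e) = 0 := by
      rw [map_sub, χ'.map_smulₛₗ, he, smul_eq_mul, mul_one, hr, sub_self]
    have hd' : χ (res' (y - r • e)) = 0 := by
      rw [hχ]
      refine Submodule.smul_induction_on ((hχ' _).1 hd) (fun a ha z _ => ?_) fun z w hz hw => by
        rw [map_add]
        exact add_mem hz hw
      rw [res'.map_smulₛₗ]
      exact Submodule.smul_mem_smul ha trivial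
    rw [map_sub, map_sub, res'.map_smulₛₗ, χ.map_smulₛₗ, sub_eq_zero] at hd'
    rw [hd', ← hr]
    rfl
  have hne : χ (res' e) ≠ 0 := fun h0 => by
    have h1 : ∀ z, χ z = 0 := fun z => by
      have hz' : z ∈ Submodule.span S (Set.range res') := hspan' ▸ Submodule.mem_top
      induction hz' using Submodule.span_induction with
      | mem y hy =>
        obtain ⟨w, rfl⟩ := hy
        rw [hlin, h0, mul_zero]
      | zero => exact map_zero χ
      | add y w _ _ hy hw => rw [map_add, hy, hw, add_zero]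
      | smul c y _ hy => rw [χ.map_smulₛₗ, hy, smul_zero]
    obtain ⟨z, hz⟩ := hχs 1
    exact one_ne_zero (hz.symm.trans (h1 z))
  exact (mul_eq_zero.1 ((hlin x).symm.trans ((hχ _).2 hx))).resolve_right hne

end Residue

section Index

variable {K : Type u} [Field K]

/-- The index of a product of two maps. -/
theorem index_prodMap {V W V' W' : Type u} [AddCommGroup V] [Module K V] [AddCommGroup W]
    [Module K W] [AddCommGroup V'] [Module K V'] [AddCommGroup W'] [Module K W']
    (f : V →ₗ[K] W) (g : V' →ₗ[K] W') [FiniteDimensional K (LinearMap.ker f)]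
    [FiniteDimensional K (LinearMap.ker g)] [FiniteDimensional K (W ⧸ LinearMap.range f)]
    [FiniteDimensional K (W' ⧸ LinearMap.range g)] :
    (f.prodMap g).index = f.index + g.index := by
  let e : LinearMap.ker (f.prodMap g) ≃ₗ[K] LinearMap.ker f × LinearMap.ker g :=
    { toFun := fun x => (⟨x.1.1, congrArg Prod.fst x.2⟩, ⟨x.1.2, congrArg Prod.snd x.2⟩)
      map_add' := fun _ _ => rfl
      map_smul' := fun _ _ => rfl
      invFun := fun y => ⟨(y.1.1, y.2.1), Prod.ext y.1.2 y.2.2⟩
      left_inv := fun _ => rfl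
      right_inv := fun _ => rfl }
  let q : W × W' →ₗ[K] (W ⧸ LinearMap.range f) × (W' ⧸ LinearMap.range g) :=
    (LinearMap.range f).mkQ.prodMap (LinearMap.range g).mkQ
  have hq : LinearMap.ker q = LinearMap.range (f.prodMap g) := by
    rw [LinearMap.ker_prodMap, LinearMap.range_prodMap, Submodule.ker_mkQ, Submodule.ker_mkQ]
  have hqs : Function.Surjective q :=
    Prod.map_surjective.2 ⟨Submodule.mkQ_surjective _, Submodule.mkQ_surjective _⟩
  rw [LinearMap.index_eq_finrank_sub, LinearMap.index_eq_finrank_sub,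
    LinearMap.index_eq_finrank_sub, e.finrank_eq, Module.finrank_prod,
    ← (Submodule.quotEquivOfEq _ _ hq).finrank_eq, (q.quotKerEquivOfSurjective hqs).finrank_eq,
    Module.finrank_prod]
  push_cast
  ring

/-- An injective map whose image is the kernel of a functional that is surjective has index `-1`. -/
theorem index_eq_neg_one {V W : Type u} [AddCommGroup V] [Module K V] [AddCommGroup W]
    [Module K W] (f : V →ₗ[K] W) (hf : Function.Injective f) (χ : W →ₗ[K] K)
    (hχ : Function.Surjective χ) (h : LinearMap.range f = LinearMap.ker χ) :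
    f.index = -1 ∧ FiniteDimensional K (W ⧸ LinearMap.range f) := by
  let e : (W ⧸ LinearMap.range f) ≃ₗ[K] K :=
    (Submodule.quotEquivOfEq _ _ h).trans (χ.quotKerEquivOfSurjective hχ)
  exact ⟨by rw [LinearMap.index_of_injective hf, e.finrank_eq, Module.finrank_self]; rfl,
    e.symm.finiteDimensional⟩

end Index

end Fermat.Agent.Jac
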