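import Fermat.Agent.Jac.Cohomology
import Fermat.Agent.Jac.ClPoint
import Fermat.Agent.Jac.Field.Basic
import Fermat.Agent.Jac.Field.Side

/-!
# Twisting line data down by a point

`exists_twist_point` gives the exact sequence of the twist and `finrank_twist_point` its effect
on global sections.
-/

set_option autoImplicit false

universe u

open scoped Pointwise TensorProduct

namespace Fermat.Agent.Jac

/-- A product with an ideal is a submodule. -/
theorem exists_tensor_map {R M P F : Type u} [CommRing R] [AddCommGroup M] [Module R M]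
    [AddCommGroup P] [Module R P] [AddCommGroup F] [Module R F] [Module.Invertible R M]
    [Module.Invertible R P] [Module.Invertible R F] (g : M →ₗ[R] P →ₗ[R] F)
    (hg : Submodule.span R (Set.range fun p : M × P => g p.1 p.2) = ⊤) (j : P →ₗ[R] R)
    (hj : Function.Injective j) :
    ∃ h : F →ₗ[R] M, Function.Injective h ∧ (∀ x y, h (g x y) = j y • x) ∧
      LinearMap.range h = LinearMap.range j • (⊤ : Submodule R M) := by
  have hs : Function.Surjective (TensorProduct.lift g) := by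
    rw [← LinearMap.range_eq_top, eq_top_iff, ← hg, Submodule.span_le]
    rintro _ ⟨p, rfl⟩
    exact ⟨p.1 ⊗ₜ p.2, TensorProduct.lift.tmul _ _⟩
  let e := LinearEquiv.ofBijective _ (Module.Invertible.bijective_of_surjective hs)
  let q : M ⊗[R] P →ₗ[R] M := (TensorProduct.rid R M).toLinearMap ∘ₗ j.lTensor M
  have hq : ∀ x y, q (x ⊗ₜ y) = j y • x := fun x y => by simp [q]
  have hh : ∀ x y, (q ∘ₗ e.symm.toLinearMap) (g x y) = j y • x := fun x y => by
    rw [LinearMap.comp_apply, ← hq x y]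
    congr 1
    exact e.symm_apply_eq.2 (TensorProduct.lift.tmul x y).symm
  refine ⟨q ∘ₗ e.symm.toLinearMap, ?_, hh, le_antisymm ?_ ?_⟩
  · exact ((TensorProduct.rid R M).injective.comp
      (Module.Flat.lTensor_preserves_injective_linearMap j hj)).comp e.symm.injective
  · rintro _ ⟨z, rfl⟩
    rw [LinearMap.comp_apply]
    induction e.symm.toLinearMap z using TensorProduct.induction_on with
    | zero => rw [map_zero]; exact zero_mem _
    | tmul x y => rw [hq]; exact Submodule.smul_mem_smul ⟨y, rfl⟩ trivial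
    | add a b ha hb => rw [map_add]; exact add_mem ha hb
  · rw [Submodule.smul_le]
    rintro _ ⟨y, rfl⟩ x -
    exact ⟨g x y, hh x y⟩

namespace LineData

variable {k : Type u} [Field k] {m : CurveModel k} {A : Type u} [CommRing A] [Algebra k A]

/-- Maps out of a product agree when they agree on products. -/
theorem span_product01 {D E F : LineData m A} {g0 : D.M0 →ₗ[m.R0 A] E.M0 →ₗ[m.R0 A] F.M0}
    {g01 : D.M01 →ₗ[m.R01 A] E.M01 →ₗ[m.R01 A] F.M01}
    (hg : ∀ x y, F.res0 (g0 x y) = g01 (D.res0 x) (E.res0 y))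
    (hs : Submodule.span (m.R0 A) (Set.range fun p : D.M0 × E.M0 => g0 p.1 p.2) = ⊤) :
    Submodule.span (m.R01 A) (Set.range fun p : D.M01 × E.M01 => g01 p.1 p.2) = ⊤ := by
  refine eq_top_iff.2 (F.span0 ▸ Submodule.span_le.2 ?_)
  rintro _ ⟨z, rfl⟩
  have hz : z ∈ Submodule.span (m.R0 A) (Set.range fun p : D.M0 × E.M0 => g0 p.1 p.2) :=
    hs ▸ Submodule.mem_top
  induction hz using Submodule.span_induction with
  | mem z hz =>
    obtain ⟨p, rfl⟩ := hz
    exact Submodule.subset_span ⟨(D.res0 p.1, E.res0 p.2), (hg _ _).symm⟩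
  | zero => rw [SetLike.mem_coe, map_zero]; exact zero_mem _
  | add a b _ _ ha hb => rw [SetLike.mem_coe, map_add]; exact add_mem ha hb
  | smul c a _ ha => rw [SetLike.mem_coe, F.res0.map_smulₛₗ]; exact Submodule.smul_mem _ _ ha

/-- The product with an ideal sheaf is a subsheaf. -/
theorem exists_down_of_ideal {D P F : LineData m A} (hF : IsProduct D P F)
    (j0 : P.M0 →ₗ[m.R0 A] m.R0 A) (j1 : P.M1 →ₗ[m.R1 A] m.R1 A)
    (j01 : P.M01 →ₗ[m.R01 A] m.R01 A) (hj0 : Function.Injective j0)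
    (hj1 : Function.Injective j1) (hj01 : Function.Injective j01)
    (hc0 : ∀ x, j01 (P.res0 x) = m.ι0 A (j0 x)) (hc1 : ∀ x, j01 (P.res1 x) = m.ι1 A (j1 x)) :
    ∃ (h0 : F.M0 →ₗ[m.R0 A] D.M0) (h1 : F.M1 →ₗ[m.R1 A] D.M1)
      (h01 : F.M01 →ₗ[m.R01 A] D.M01),
      Function.Injective h0 ∧ Function.Injective h1 ∧ Function.Injective h01 ∧
      (∀ x, D.res0 (h0 x) = h01 (F.res0 x)) ∧ (∀ x, D.res1 (h1 x) = h01 (F.res1 x)) ∧
      LinearMap.range h0 = LinearMap.range j0 • ⊤ ∧ LinearMap.range h1 = LinearMap.range j1 • ⊤ ∧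
      LinearMap.range h01 = LinearMap.range j01 • ⊤ := by
  obtain ⟨g0, g1, g01, hg0, hg1, hs0, hs1⟩ := hF
  obtain ⟨h0, i0, e0, r0⟩ := exists_tensor_map g0 hs0 j0 hj0
  obtain ⟨h1, i1, e1, r1⟩ := exists_tensor_map g1 hs1 j1 hj1
  obtain ⟨h01, i01, e01, r01⟩ := exists_tensor_map g01 (span_product01 hg0 hs0) j01 hj01
  refine ⟨h0, h1, h01, i0, i1, i01, fun z => ?_, fun z => ?_, r0, r1, r01⟩
  · have hz : z ∈ Submodule.span (m.R0 A) (Set.range fun p : D.M0 × P.M0 => g0 p.1 p.2) :=
      hs0 ▸ Submodule.mem_top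
    induction hz using Submodule.span_induction with
    | mem z hz =>
      obtain ⟨p, rfl⟩ := hz
      rw [e0, hg0, e01, D.res0.map_smulₛₗ, hc0]
    | zero => simp only [map_zero]
    | add a b _ _ ha hb => simp only [map_add, ha, hb]
    | smul c a _ ha => rw [map_smul, D.res0.map_smulₛₗ, F.res0.map_smulₛₗ, map_smul, ha]
  · have hz : z ∈ Submodule.span (m.R1 A) (Set.range fun p : D.M1 × P.M1 => g1 p.1 p.2) :=
      hs1 ▸ Submodule.mem_top
    induction hz using Submodule.span_induction with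
    | mem z hz =>
      obtain ⟨p, rfl⟩ := hz
      rw [e1, hg1, e01, D.res1.map_smulₛₗ, hc1]
    | zero => simp only [map_zero]
    | add a b _ _ ha hb => simp only [map_add, ha, hb]
    | smul c a _ ha => rw [map_smul, D.res1.map_smulₛₗ, F.res1.map_smulₛₗ, map_smul, ha]

end LineData

section Residue

variable {K : Type u} [Field K] {R R' S : Type u} [CommRing R] [CommRing R'] [CommRing S]
variable [Algebra K R] [Algebra K R'] [Algebra K S]
variable {M N : Type u} [AddCommGroup M] [Module R M] [AddCommGroup N] [Module R N]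
variable [Module K M] [IsScalarTower K R M] [Module K N] [IsScalarTower K R N]

/-- The index of an injection onto the elements vanishing at a rational point. -/
theorem index_restrict_point [Module.Invertible R M] (π : R →ₐ[K] K) (h : N →ₗ[R] M)
    (hinj : Function.Injective h)
    (hr : LinearMap.range h = RingHom.ker π • (⊤ : Submodule R M)) :
    (h.restrictScalars K).index = -1 ∧
      FiniteDimensional K (M ⧸ LinearMap.range (h.restrictScalars K)) := by
  have hπ : Function.Surjective π := fun a => ⟨algebraMap K R a, π.commutes a⟩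
  obtain ⟨χ, hχs, hχ⟩ := exists_fibre (M := M) (π : R →+* K) hπ
  let χK : M →ₗ[K] K :=
    { toFun := χ
      map_add' := map_add χ
      map_smul' := fun a x => by
        rw [← IsScalarTower.algebraMap_smul R a x, χ.map_smulₛₗ]
        simp }
  refine index_eq_neg_one _ hinj χK hχs ?_
  ext x
  refine Iff.trans ?_ (hχ x).symm
  rw [LinearMap.range_restrictScalars, Submodule.restrictScalars_mem, hr]
  rfl

/-- The index of a bijection. -/
theorem index_restrict_top (h : N →ₗ[R] M) (hinj : Function.Injective h)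
    (hr : LinearMap.range h = (⊤ : Ideal R) • (⊤ : Submodule R M)) :
    (h.restrictScalars K).index = 0 ∧
      FiniteDimensional K (M ⧸ LinearMap.range (h.restrictScalars K)) := by
  rw [Submodule.top_smul] at hr
  have ht : LinearMap.range (h.restrictScalars K) = ⊤ := by
    rw [LinearMap.range_restrictScalars, hr, Submodule.restrictScalars_top]
  have : Subsingleton (M ⧸ LinearMap.range (h.restrictScalars K)) :=
    Submodule.Quotient.subsingleton_iff.2 ht
  exact ⟨by rw [LinearMap.index_of_injective (f := h.restrictScalars K) hinj,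
    Module.finrank_zero_of_subsingleton]; rfl,
    inferInstance⟩

omit [Algebra K R'] [Algebra K S] in
/-- An ideal with one-dimensional residue ring is the kernel of a rational point. -/
theorem exists_ker_eq {I : Ideal R} (hI : I ≠ ⊤)
    (h : ∀ x : R, ∃ a : K, x - algebraMap K R a ∈ I) :
    ∃ π : R →ₐ[K] K, RingHom.ker π = I := by
  have : Nontrivial (R ⧸ I) := Ideal.Quotient.nontrivial_iff.2 hI
  have hb : Function.Bijective (Algebra.ofId K (R ⧸ I)) :=
    ⟨RingHom.injective _, fun z => by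
      obtain ⟨x, rfl⟩ := Ideal.Quotient.mk_surjective z
      obtain ⟨a, ha⟩ := h x
      exact ⟨a, (Ideal.Quotient.eq.2 ha).symm⟩⟩
  refine ⟨(AlgEquiv.ofBijective _ hb).symm.toAlgHom.comp (Ideal.Quotient.mkₐ K I), ?_⟩
  ext x
  simp [RingHom.mem_ker, Ideal.Quotient.eq_zero_iff_mem]

variable {M' T N' W : Type u} [AddCommGroup M'] [Module R' M'] [AddCommGroup T] [Module S T]
variable [AddCommGroup N'] [Module R' N'] [AddCommGroup W] [Module S W]
variable [Module K M'] [IsScalarTower K R' M'] [Module K N'] [IsScalarTower K R' N']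
variable [Module K T] [IsScalarTower K S T] [Module K W] [IsScalarTower K S W]

/-- On the other chart and on the overlap the index is the same. -/
theorem index_restrict_other [Module.Invertible R' M'] [Module.Invertible S T]
    (ι : R →ₐ[K] S) (ι' : R' →ₐ[K] S) {t : R} (φ : R →ₐ[K] K)
    (hsurj : ∀ x : S, ∃ (n : ℕ) (y : R), ι y = ι t ^ n * x) (hunit : IsUnit (ι t))
    (h' : N' →ₗ[R'] M') (hS : W →ₗ[S] T) (hi' : Function.Injective h')
    (hiS : Function.Injective hS)
    (hr' : LinearMap.range h' = ((RingHom.ker φ).map ι).comap ι' • (⊤ : Submodule R' M'))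
    (hrS : LinearMap.range hS = (RingHom.ker φ).map ι • (⊤ : Submodule S T)) :
    (h'.restrictScalars K).index = (hS.restrictScalars K).index ∧
      FiniteDimensional K (M' ⧸ LinearMap.range (h'.restrictScalars K)) ∧
      FiniteDimensional K (T ⧸ LinearMap.range (hS.restrictScalars K)) := by
  by_cases h : (RingHom.ker φ).map ι = ⊤
  · rw [h, Ideal.comap_top] at hr'
    rw [h] at hrS
    obtain ⟨a, a'⟩ := index_restrict_top (K := K) h' hi' hr'
    obtain ⟨b, b'⟩ := index_restrict_top (K := K) hS hiS hrS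
    exact ⟨a.trans b.symm, a', b'⟩
  · obtain ⟨hS', hR'⟩ := residue_of_ne_top ι ι' φ hsurj hunit h
    obtain ⟨π', hπ'⟩ := exists_ker_eq (I := ((RingHom.ker φ).map ι).comap ι')
      (fun hc => h (by
        rw [Ideal.eq_top_iff_one] at hc ⊢
        simpa using hc)) hR'
    obtain ⟨πS, hπS⟩ := exists_ker_eq h hS'
    rw [← hπ'] at hr'
    rw [← hπS] at hrS
    obtain ⟨a, a'⟩ := index_restrict_point π' h' hi' hr'
    obtain ⟨b, b'⟩ := index_restrict_point πS hS hiS hrS
    exact ⟨a.trans b.symm, a', b'⟩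

end Residue

namespace LineData

variable {k : Type u} [Field k] {m : CurveModel k} {A : Type u} [CommRing A] [Algebra k A]

/-- Vanishing of a pair of local sections at a point. -/
def Vanishes (D : LineData m A) (p : ChartPoint m A) (s : D.M0 × D.M1) : Prop :=
  Sum.elim (fun φ => s.1 ∈ RingHom.ker (m.ev0 φ) • (⊤ : Submodule (m.R0 A) D.M0))
    (fun φ => s.2 ∈ RingHom.ker (m.ev1 φ) • (⊤ : Submodule (m.R1 A) D.M1)) p

theorem cechLin_apply (D : LineData m A) (x : D.M0 × D.M1) :
    D.cechLin x = D.res0 x.1 - D.res1 x.2 := rfl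

theorem mem_H0 (D : LineData m A) (x : D.M0 × D.M1) : x ∈ D.H0 ↔ D.res0 x.1 = D.res1 x.2 := by
  rw [LinearMap.mem_ker, cechLin_apply, sub_eq_zero]

variable {K : Type u} [Field K] [Algebra k K]

/-- Comparison of a subsheaf with its ambient sheaf. -/
theorem euler_of_maps {D F : LineData m K} (h0 : F.M0 →ₗ[m.R0 K] D.M0)
    (h1 : F.M1 →ₗ[m.R1 K] D.M1) (h01 : F.M01 →ₗ[m.R01 K] D.M01) (hi0 : Function.Injective h0)
    (hi1 : Function.Injective h1) (hi01 : Function.Injective h01)
    (hc0 : ∀ x, D.res0 (h0 x) = h01 (F.res0 x)) (hc1 : ∀ x, D.res1 (h1 x) = h01 (F.res1 x))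
    [FiniteDimensional K (D.M0 ⧸ LinearMap.range (h0.restrictScalars K))]
    [FiniteDimensional K (D.M1 ⧸ LinearMap.range (h1.restrictScalars K))]
    [FiniteDimensional K (D.M01 ⧸ LinearMap.range (h01.restrictScalars K))] :
    D.euler + ((h0.restrictScalars K).index + (h1.restrictScalars K).index) =
      (h01.restrictScalars K).index + F.euler ∧
    ∃ f : F.H0 →ₗ[K] D.H0, Function.Injective f ∧
      ∀ s, s ∈ LinearMap.range f ↔ s.1.1 ∈ LinearMap.range h0 ∧ s.1.2 ∈ LinearMap.range h1 := by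
  let a := h0.restrictScalars K
  let b := h1.restrictScalars K
  let c := h01.restrictScalars K
  have := D.finite_H0
  have := D.finite_H1
  have := F.finite_H0
  have := F.finite_H1
  have ka : LinearMap.ker a = ⊥ := LinearMap.ker_eq_bot.2 hi0
  have kb : LinearMap.ker b = ⊥ := LinearMap.ker_eq_bot.2 hi1
  have kc : LinearMap.ker c = ⊥ := LinearMap.ker_eq_bot.2 hi01
  have : FiniteDimensional K (LinearMap.ker a) := by rw [ka]; infer_instance
  have : FiniteDimensional K (LinearMap.ker b) := by rw [kb]; infer_instance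
  have : FiniteDimensional K (LinearMap.ker c) := by rw [kc]; infer_instance
  have hab : FiniteDimensional K (LinearMap.ker (a.prodMap b)) := by
    rw [LinearMap.ker_prodMap, ka, kb, Submodule.prod_bot]; infer_instance
  have hab' : FiniteDimensional K ((D.M0 × D.M1) ⧸ LinearMap.range (a.prodMap b)) :=
    Module.Finite.of_surjective (M := (D.M0 ⧸ LinearMap.range a) × (D.M1 ⧸ LinearMap.range b))
      ((LinearMap.range a).mkQ.prodMap (LinearMap.range b).mkQ |>.quotKerEquivOfSurjective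
        (Prod.map_surjective.2 ⟨Submodule.mkQ_surjective _, Submodule.mkQ_surjective _⟩)
        |>.symm.trans (Submodule.quotEquivOfEq _ _ (by
          rw [LinearMap.ker_prodMap, LinearMap.range_prodMap, Submodule.ker_mkQ,
            Submodule.ker_mkQ]))).toLinearMap
      (LinearEquiv.surjective _)
  have hsq : D.cechLin ∘ₗ a.prodMap b = c ∘ₗ F.cechLin := LinearMap.ext fun x => by
    simp [a, b, c, cechLin_apply, hc0, hc1, map_sub]
  refine ⟨?_, ?_⟩
  · have := congrArg LinearMap.index hsq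
    rw [LinearMap.index_comp, LinearMap.index_comp, index_prodMap] at this
    exact this
  · have hm : ∀ x ∈ F.H0, a.prodMap b x ∈ D.H0 := fun x hx => by
      rw [LinearMap.mem_ker] at hx ⊢
      rw [← LinearMap.comp_apply, hsq, LinearMap.comp_apply, hx, map_zero]
    refine ⟨(a.prodMap b).restrict hm, fun x y h => ?_, fun s => ⟨?_, ?_⟩⟩
    · have h' := congrArg Subtype.val h
      simp only [LinearMap.coe_restrict_apply, LinearMap.prodMap_apply, Prod.mk.injEq] at h'
      exact Subtype.ext (Prod.ext (hi0 h'.1) (hi1 h'.2))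
    · rintro ⟨x, rfl⟩
      exact ⟨⟨x.1.1, rfl⟩, ⟨x.1.2, rfl⟩⟩
    · rintro ⟨⟨x, hx⟩, y, hy⟩
      refine ⟨⟨(x, y), (mem_H0 _ _).2 (hi01 ?_)⟩, Subtype.ext (Prod.ext hx hy)⟩
      rw [← hc0, ← hc1]
      exact (congrArg D.res0 hx).trans (((mem_H0 _ _).1 s.2).trans (congrArg D.res1 hy).symm)

/-- Twisting down by a point. -/
theorem exists_twist_point (D : LineData m K) (p : ChartPoint m K) :
    ∃ F : LineData m K, Cl.mk F = Cl.mk D * Cl.point p ∧ F.euler = D.euler - 1 ∧
      ∃ (f : F.H0 →ₗ[K] D.H0) (χ : D.H0 →ₗ[K] K), Function.Injective f ∧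
        LinearMap.range f = LinearMap.ker χ ∧ ∀ s, χ s = 0 ↔ D.Vanishes p s.1 := by
  cases p with
  | inl φ =>
    obtain ⟨P, hP, hPeq⟩ : ∃ P : LineData m K,
        P.IsPointIdeal0 φ ∧ Cl.point (Sum.inl φ) = Cl.mk P :=
      ⟨_, (exists_isPointIdeal0 φ).choose_spec, rfl⟩
    obtain ⟨j0, j1, j01, hj0, hj1, hj01, hp0, hp1, hr0, hr1⟩ := hP
    obtain ⟨F, hF⟩ := exists_isProduct D P
    refine ⟨F, (Cl.mk_mul hF).symm.trans (by rw [hPeq]), ?_⟩
    obtain ⟨h0, h1, h01, i0, i1, i01, c0, c1, r0, r1, r01⟩ :=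
      exists_down_of_ideal hF j0 j1 j01 hj0 hj1 hj01 hp0 hp1
    have hr01 : LinearMap.range j01 = (RingHom.ker (m.ev0 φ)).map (m.ι0 K) := by
      rw [← hr0, LinearMap.range_eq_map, ← P.span0, Submodule.map_span, ← Set.range_comp]
      refine congrArg Ideal.span (Set.ext fun z => ⟨?_, ?_⟩)
      · rintro ⟨x, rfl⟩
        exact ⟨j0 x, ⟨x, rfl⟩, (hp0 x).symm⟩
      · rintro ⟨_, ⟨x, rfl⟩, rfl⟩
        exact ⟨x, hp0 x⟩
    rw [hr0] at r0
    rw [hr1] at r1
    rw [hr01] at r01
    obtain ⟨x0, f0⟩ := index_restrict_point (m.aev0 φ) h0 i0 r0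
    obtain ⟨x1, f1, f01⟩ := index_restrict_other (m.aι0 K) (m.aι1 K) (m.aev0 φ) (m.surj0A K)
      (m.isUnit_ι0_tA K) h1 h01 i1 i01 r1 r01
    obtain ⟨he, f, hf, hfr⟩ := euler_of_maps h0 h1 h01 i0 i1 i01 c0 c1
    refine ⟨by linarith, ?_⟩
    obtain ⟨χ, -, hχ⟩ := exists_fibre (M := D.M0) (m.ev0 φ)
      fun a => ⟨algebraMap K _ a, (m.aev0 φ).commutes a⟩
    let χH : D.H0 →ₗ[K] K :=
      { toFun := fun s => χ s.1.1
        map_add' := fun _ _ => map_add χ _ _
        map_smul' := fun a s => by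
          show χ (a • s.1.1) = a • χ s.1.1
          rw [← IsScalarTower.algebraMap_smul (m.R0 K) a s.1.1, χ.map_smulₛₗ]
          congr 1
          exact (m.aev0 φ).commutes a }
    refine ⟨f, χH, hf, ?_, fun s => hχ _⟩
    ext s
    rw [hfr, LinearMap.mem_ker, r0, r1]
    refine ⟨fun h => (hχ _).2 h.1, fun h => ⟨(hχ _).1 h, ?_⟩⟩
    refine mem_smul_of_res_mem (m.aι0 K) (m.aι1 K) (m.aev0 φ) (m.surj0A K)
      (m.isUnit_ι0_tA K) D.res1 D.span1 ?_
    suffices hk : D.res0 s.1.1 ∈
        (RingHom.ker (m.ev0 φ)).map (m.ι0 K) • (⊤ : Submodule (m.R01 K) D.M01) from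
      (mem_H0 _ _).1 s.2 ▸ hk
    obtain ⟨z, hz⟩ := r0.ge ((hχ _).1 h)
    rw [← hz, c0]
    exact r01.le ⟨_, rfl⟩
  | inr φ =>
    obtain ⟨P, hP, hPeq⟩ : ∃ P : LineData m K,
        P.IsPointIdeal1 φ ∧ Cl.point (Sum.inr φ) = Cl.mk P :=
      ⟨_, (exists_isPointIdeal1 φ).choose_spec, rfl⟩
    obtain ⟨j0, j1, j01, hj0, hj1, hj01, hp0, hp1, hr1, hr0⟩ := hP
    obtain ⟨F, hF⟩ := exists_isProduct D P
    refine ⟨F, (Cl.mk_mul hF).symm.trans (by rw [hPeq]), ?_⟩
    obtain ⟨h0, h1, h01, i0, i1, i01, c0, c1, r0, r1, r01⟩ :=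
      exists_down_of_ideal hF j0 j1 j01 hj0 hj1 hj01 hp0 hp1
    have hr01 : LinearMap.range j01 = (RingHom.ker (m.ev1 φ)).map (m.ι1 K) := by
      rw [← hr1, LinearMap.range_eq_map, ← P.span1, Submodule.map_span, ← Set.range_comp]
      refine congrArg Ideal.span (Set.ext fun z => ⟨?_, ?_⟩)
      · rintro ⟨x, rfl⟩
        exact ⟨j1 x, ⟨x, rfl⟩, (hp1 x).symm⟩
      · rintro ⟨_, ⟨x, rfl⟩, rfl⟩
        exact ⟨x, hp1 x⟩
    rw [hr0] at r0
    rw [hr1] at r1
    rw [hr01] at r01
    obtain ⟨x1, f1⟩ := index_restrict_point (m.aev1 φ) h1 i1 r1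
    obtain ⟨x0, f0, f01⟩ := index_restrict_other (m.aι1 K) (m.aι0 K) (m.aev1 φ) (m.surj1A K)
      (m.isUnit_ι1_sA K) h0 h01 i0 i01 r0 r01
    obtain ⟨he, f, hf, hfr⟩ := euler_of_maps h0 h1 h01 i0 i1 i01 c0 c1
    refine ⟨by linarith, ?_⟩
    obtain ⟨χ, -, hχ⟩ := exists_fibre (M := D.M1) (m.ev1 φ)
      fun a => ⟨algebraMap K _ a, (m.aev1 φ).commutes a⟩
    let χH : D.H0 →ₗ[K] K :=
      { toFun := fun s => χ s.1.2
        map_add' := fun _ _ => map_add χ _ _
        map_smul' := fun a s => by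
          show χ (a • s.1.2) = a • χ s.1.2
          rw [← IsScalarTower.algebraMap_smul (m.R1 K) a s.1.2, χ.map_smulₛₗ]
          congr 1
          exact (m.aev1 φ).commutes a }
    refine ⟨f, χH, hf, ?_, fun s => hχ _⟩
    ext s
    rw [hfr, LinearMap.mem_ker, r0, r1]
    refine ⟨fun h => (hχ _).2 h.2, fun h => ⟨?_, (hχ _).1 h⟩⟩
    refine mem_smul_of_res_mem (m.aι1 K) (m.aι0 K) (m.aev1 φ) (m.surj1A K)
      (m.isUnit_ι1_sA K) D.res0 D.span0 ?_
    suffices hk : D.res1 s.1.2 ∈
        (RingHom.ker (m.ev1 φ)).map (m.ι1 K) • (⊤ : Submodule (m.R01 K) D.M01) from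
      ((mem_H0 _ _).1 s.2).symm ▸ hk
    obtain ⟨z, hz⟩ := r1.ge ((hχ _).1 h)
    rw [← hz, c1]
    exact r01.le ⟨_, rfl⟩

/-- Twisting down by a point loses at most one section. -/
theorem finrank_twist_point (D : LineData m K) (p : ChartPoint m K) :
    ∃ F : LineData m K, Cl.mk F = Cl.mk D * Cl.point p ∧ F.euler = D.euler - 1 ∧
      Module.finrank K D.H0 ≤ Module.finrank K F.H0 + 1 ∧
      Module.finrank K F.H0 ≤ Module.finrank K D.H0 ∧
      ((∃ s : D.H0, ¬ D.Vanishes p s.1) → Module.finrank K F.H0 + 1 = Module.finrank K D.H0) ∧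
      ((∀ s : D.H0, D.Vanishes p s.1) → Module.finrank K F.H0 = Module.finrank K D.H0) := by
  obtain ⟨F, hF, he, f, χ, hf, hr, hχ⟩ := D.exists_twist_point p
  have := D.finite_H0
  have h1 := LinearMap.finrank_range_add_finrank_ker χ
  have h2 : Module.finrank K F.H0 = Module.finrank K (LinearMap.ker χ) := by
    rw [← hr, LinearMap.finrank_range_of_inj hf]
  have h3 : Module.finrank K (LinearMap.range χ) ≤ 1 :=
    (Submodule.finrank_le _).trans (Module.finrank_self K).le
  refine ⟨F, hF, he, by lia, by lia, ?_, ?_⟩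
  · rintro ⟨s, hs⟩
    have h4 : 0 < Module.finrank K (LinearMap.range χ) :=
      Module.finrank_pos_iff_exists_ne_zero.2
        ⟨⟨χ s, s, rfl⟩, fun h => hs ((hχ s).1 (congrArg Subtype.val h))⟩
    lia
  · intro hall
    have h4 : LinearMap.range χ = ⊥ :=
      LinearMap.range_eq_bot.2 (LinearMap.ext fun s => (hχ s).2 (hall s))
    rw [h4, finrank_bot] at h1
    lia

end LineData

end Fermat.Agent.Jac
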