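import Fermat.Agent.Jac.Field.Down

/-!
# Effective classes are products of inverses of points

`exists_points` writes a class with a nonzero section through the classes of points.
-/

set_option autoImplicit false

universe u

open scoped Pointwise TensorProduct

namespace Fermat.Agent.Jac

/-- An element not vanishing at any maximal ideal generates. -/
theorem span_singleton_eq_top {R M : Type u} [CommRing R] [AddCommGroup M] [Module R M]
    [Module.Invertible R M] (x : M)
    (h : ∀ 𝔭 : Ideal R, 𝔭.IsMaximal → ∃ (K : Type u) (_ : Field K) (π : R →+* K),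
      Function.Surjective π ∧ RingHom.ker π = 𝔭 ∧ x ∉ RingHom.ker π • (⊤ : Submodule R M)) :
    Submodule.span R {x} = ⊤ := by
  set N := Submodule.span R {x}
  by_contra hN
  have hne : Module.annihilator R (M ⧸ N) ≠ ⊤ := fun ht => hN (by
    rw [Module.annihilator_eq_top_iff, Submodule.Quotient.subsingleton_iff] at ht
    exact ht)
  obtain ⟨𝔭, h𝔭, hle⟩ := Ideal.exists_le_maximal _ hne
  obtain ⟨K, _, π, hπ, rfl, hx⟩ := h 𝔭 h𝔭
  obtain ⟨χ, -, hχ⟩ := exists_fibre (M := M) π hπ
  have hq : (⊤ : Submodule R (M ⧸ N)) ≤ RingHom.ker π • ⊤ := by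
    rintro z -
    obtain ⟨y, rfl⟩ := N.mkQ_surjective z
    obtain ⟨r, hr⟩ := hπ (χ y / χ x)
    have hy : y - r • x ∈ RingHom.ker π • (⊤ : Submodule R M) := (hχ _).1 (by
      rw [map_sub, χ.map_smulₛₗ, hr, smul_eq_mul, div_mul_cancel₀ _ (fun h0 => hx ((hχ _).1 h0)),
        sub_self])
    have hy' := Submodule.mem_map_of_mem (f := N.mkQ) hy
    rw [Submodule.map_smul'', Submodule.map_top, Submodule.range_mkQ] at hy'
    have hrx : N.mkQ (r • x) = 0 :=
      (Submodule.Quotient.mk_eq_zero N).2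
        (Submodule.smul_mem _ r (Submodule.mem_span_singleton_self x))
    rwa [map_sub, hrx, sub_zero] at hy'
  obtain ⟨r, hr, hr0⟩ := Submodule.exists_sub_one_mem_and_smul_eq_zero_of_fg_of_le_smul
    (RingHom.ker π) ⊤ Module.Finite.fg_top hq
  have hr' : r ∈ RingHom.ker π :=
    hle (Module.mem_annihilator.2 fun z => hr0 z trivial)
  exact h𝔭.ne_top ((Ideal.eq_top_iff_one _).2 (by simpa using sub_mem hr' hr))

/-- In a ring of dimension one, high powers divide their successors modulo a nonzero element. -/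
theorem exists_pow_dvd_modulo {R : Type u} [CommRing R] [IsDedekindDomain R] {f : R} (hf : f ≠ 0)
    (t : R) : ∃ (N : ℕ) (c : R), ∀ n, f ∣ t ^ (N + n) * c ^ n - t ^ N := by
  have : Ring.KrullDimLE 0 (R ⧸ Ideal.span {f}) := Ring.krullDimLE_zero_iff.2 fun J hJ => by
    have hmem : f ∈ J.comap (Ideal.Quotient.mk (Ideal.span {f})) := by
      rw [Ideal.mem_comap, Ideal.Quotient.eq_zero_iff_mem.2 (Ideal.mem_span_singleton_self f)]
      exact zero_mem _
    have hmax := (Ideal.IsPrime.comap (Ideal.Quotient.mk (Ideal.span {f})) (K := J)).isMaximal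
      fun hb => hf (by rwa [hb] at hmem)
    have := Ideal.map_eq_top_or_isMaximal_of_surjective _
      (Ideal.Quotient.mk_surjective (I := Ideal.span {f})) hmax
    rw [Ideal.map_comap_of_surjective _ Ideal.Quotient.mk_surjective] at this
    exact this.resolve_left hJ.ne_top
  have : IsArtinianRing (R ⧸ Ideal.span {f}) := IsNoetherianRing.isArtinianRing_of_krullDimLE_zero
  obtain ⟨N, y, hy⟩ := IsArtinian.exists_pow_succ_smul_dvd
    (Ideal.Quotient.mk (Ideal.span {f}) t) (1 : R ⧸ Ideal.span {f})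
  obtain ⟨c, rfl⟩ := Ideal.Quotient.mk_surjective y
  refine ⟨N, c, fun n => ?_⟩
  rw [← Ideal.mem_span_singleton, ← Ideal.Quotient.eq_zero_iff_mem, map_sub, sub_eq_zero,
    map_mul, map_pow, map_pow, map_pow]
  simp only [smul_eq_mul, mul_one] at hy
  induction n with
  | zero => simp
  | succ n ih =>
    rw [Nat.succ_eq_add_one] at hy
    linear_combination (Ideal.Quotient.mk _ t ^ n * Ideal.Quotient.mk _ c ^ n) * hy + ih

namespace LineData

variable {k : Type u} [Field k] {m : CurveModel k} {K : Type u} [Field K] [Algebra k K]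
variable [IsAlgClosed K]

/-- A nowhere vanishing section trivialises. -/
theorem iso_of_not_vanishes (D : LineData m K) (s : D.H0)
    (h : ∀ p, ¬ D.Vanishes p s.1) : Nonempty (Iso trivialData D) := by
  have hg0 : Submodule.span (m.R0 K) {s.1.1} = ⊤ := span_singleton_eq_top _ fun 𝔭 h𝔭 => by
    obtain ⟨φ, rfl⟩ := m.exists_point0 𝔭
    exact ⟨K, inferInstance, m.ev0 φ, fun a => ⟨algebraMap K _ a, (m.aev0 φ).commutes a⟩, rfl,
      h (Sum.inl φ)⟩
  have hg1 : Submodule.span (m.R1 K) {s.1.2} = ⊤ := span_singleton_eq_top _ fun 𝔭 h𝔭 => by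
    obtain ⟨φ, rfl⟩ := m.exists_point1 𝔭
    exact ⟨K, inferInstance, m.ev1 φ, fun a => ⟨algebraMap K _ a, (m.aev1 φ).commutes a⟩, rfl,
      h (Sum.inr φ)⟩
  have hs : D.res0 s.1.1 = D.res1 s.1.2 := (mem_H0 _ _).1 s.2
  have hg01 : Submodule.span (m.R01 K) {D.res0 s.1.1} = ⊤ := by
    refine eq_top_iff.2 (D.span0 ▸ Submodule.span_le.2 ?_)
    rintro _ ⟨z, rfl⟩
    obtain ⟨r, rfl⟩ := Submodule.mem_span_singleton.1 (hg0.ge (Submodule.mem_top (x := z)))
    rw [SetLike.mem_coe, D.res0.map_smulₛₗ]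
    exact Submodule.smul_mem _ _ (Submodule.mem_span_singleton_self _)
  let e0 := LinearEquiv.ofBijective (LinearMap.toSpanSingleton (m.R0 K) D.M0 s.1.1)
    (Module.Invertible.bijective_of_surjective (LinearMap.range_eq_top.1 (by
      rw [LinearMap.range_toSpanSingleton, hg0])))
  let e1 := LinearEquiv.ofBijective (LinearMap.toSpanSingleton (m.R1 K) D.M1 s.1.2)
    (Module.Invertible.bijective_of_surjective (LinearMap.range_eq_top.1 (by
      rw [LinearMap.range_toSpanSingleton, hg1])))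
  let e01 := LinearEquiv.ofBijective (LinearMap.toSpanSingleton (m.R01 K) D.M01 (D.res0 s.1.1))
    (Module.Invertible.bijective_of_surjective (LinearMap.range_eq_top.1 (by
      rw [LinearMap.range_toSpanSingleton, hg01])))
  refine ⟨⟨e0, e1, e01, fun (r : m.R0 K) => ?_, fun (r : m.R1 K) => ?_⟩⟩
  · show D.res0 (r • s.1.1) = m.ι0 K r • D.res0 s.1.1
    exact D.res0.map_smulₛₗ _ _
  · show D.res1 (r • s.1.2) = m.ι1 K r • D.res0 s.1.1
    rw [hs]
    exact D.res1.map_smulₛₗ _ _

/-- The trivial bundle has exactly the constants as sections. -/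
theorem finrank_H0_trivial :
    Module.finrank K (trivialData (m := m) (A := K)).H0 = 1 := by
  let d : LineData m K := trivialData
  let g : K →ₗ[K] d.M0 × d.M1 :=
    (Algebra.linearMap K (m.R0 K)).prod (Algebra.linearMap K (m.R1 K))
  have hr : LinearMap.range g = d.H0 := by
    refine le_antisymm ?_ fun x hx => ?_
    · rintro _ ⟨a, rfl⟩
      exact (mem_H0 _ _).2 ((m.aι0 K).commutes a |>.trans ((m.aι1 K).commutes a).symm)
    · have hx' : m.ι0 K x.1 = m.ι1 K x.2 := (mem_H0 _ _).1 hx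
      obtain ⟨a, ha, -⟩ := m.existsUnique_const K x.1 x.2 hx'
      refine ⟨a, Prod.ext ha.symm (m.ι1_injective K ?_)⟩
      exact ((m.aι1 K).commutes a).trans (((m.aι0 K).commutes a).symm.trans
        ((congrArg (m.ι0 K) ha.symm).trans hx'))
  show Module.finrank K d.H0 = 1
  rw [← hr, LinearMap.finrank_range_of_inj, Module.finrank_self]
  have := m.dedekind0 K
  intro a b h
  exact (algebraMap K (m.R0 K)).injective (congrArg Prod.fst h)

/-- A bundle with a section has at least the Euler characteristic of the trivial one. -/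
theorem euler_trivial_le (D : LineData m K) (s : D.H0) (hs : s ≠ 0) :
    (trivialData (m := m) (A := K)).euler ≤ D.euler := by
  have := D.finite_H0
  have := D.finite_H1
  let d : LineData m K := trivialData
  have := d.finite_H1
  have := m.domain01 K
  have := m.dedekind0 K
  have := m.dedekind1 K
  have heq : D.res0 s.1.1 = D.res1 s.1.2 := (mem_H0 _ _).1 s.2
  have hx : s.1.1 ≠ 0 := fun h0 => hs (Subtype.ext (Prod.ext h0
    (injective_of_span (m.ι1_injective K) D.res1 D.span1 (by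
      rw [← heq, h0, map_zero]
      exact (map_zero D.res1).symm))))
  obtain ⟨f, hf, hfm⟩ := exists_smul_eq (R := m.R0 K) hx
  obtain ⟨N, c, hc⟩ := exists_pow_dvd_modulo hf (m.tA K)
  let g : d.M01 →ₗ[K] D.M01 :=
    (LinearMap.toSpanSingleton (m.R01 K) D.M01 (D.res0 s.1.1)).restrictScalars K
  have hg : LinearMap.range d.cechLin ≤ (LinearMap.range D.cechLin).comap g := by
    rintro _ ⟨x, rfl⟩
    let x0 : m.R0 K := x.1
    let x1 : m.R1 K := x.2
    refine ⟨(x0 • s.1.1, x1 • s.1.2), ?_⟩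
    show D.res0 (x0 • s.1.1) - D.res1 (x1 • s.1.2) = (m.ι0 K x0 - m.ι1 K x1) • D.res0 s.1.1
    rw [D.res0.map_smulₛₗ, D.res1.map_smulₛₗ, ← heq, sub_smul]
  have hts := m.ι0_tA_mul_ι1_sA K
  set T := m.ι0 K (m.tA K) with hT
  set S := m.ι1 K (m.sA K)
  have hts' : ∀ j, T ^ j * S ^ j = 1 := fun j => by rw [← mul_pow, hts, one_pow]
  have key : ∀ y : D.M01, ∃ (z : D.M0) (w : m.R01 K), w • D.res0 s.1.1 = y - D.res0 z := by
    intro y
    obtain ⟨n, y0, hy0⟩ := exists_res_eq_pow_smul (m.surj0A K) D.res0 D.span0 y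
    obtain ⟨q, hq⟩ := hc n
    obtain ⟨r, hr⟩ := hfm y0
    have hq' : T ^ (N + n) * m.ι0 K (c ^ n) - T ^ N = m.ι0 K f * m.ι0 K q := by
      rw [hT, ← map_pow (m.ι0 K), ← map_pow (m.ι0 K), ← map_mul, ← map_mul, ← map_sub, hq]
    refine ⟨c ^ n • y0, -(S ^ N * S ^ n * m.ι0 K q * m.ι0 K r), ?_⟩
    rw [neg_smul, ← smul_smul, ← D.res0.map_smulₛₗ r, ← hr, D.res0.map_smulₛₗ, D.res0.map_smulₛₗ,
      hy0, smul_smul, smul_smul, smul_smul, ← neg_smul, eq_sub_iff_add_eq, ← add_smul]
    convert one_smul (m.R01 K) y using 2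
    rw [pow_add] at hq'
    linear_combination (S ^ N * S ^ n * T ^ n) * hq' -
      (T ^ n * m.ι0 K (c ^ n) - 1) * ((T ^ n * S ^ n) * hts' N + hts' n)
  have hsurj : Function.Surjective ((LinearMap.range d.cechLin).mapQ _ g hg) := by
    intro z
    obtain ⟨y, rfl⟩ := Submodule.mkQ_surjective _ z
    obtain ⟨z, w, hw⟩ := key y
    refine ⟨Submodule.Quotient.mk (p := LinearMap.range d.cechLin) w,
      (Submodule.Quotient.eq (LinearMap.range D.cechLin)).2 ⟨(-z, 0), ?_⟩⟩
    show D.res0 (-z) - D.res1 0 = w • D.res0 s.1.1 - y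
    rw [hw, map_zero, sub_zero, map_neg]
    abel
  have h1 := LinearMap.finrank_le_finrank_of_surjective hsurj
  have h0 : 0 < Module.finrank K D.H0 := Module.finrank_pos_iff_exists_ne_zero.2 ⟨s, hs⟩
  have h2 := finrank_H0_trivial (m := m) (K := K)
  unfold euler
  rw [h2]
  change (1 : ℕ) - (Module.finrank K d.H1 : ℤ) ≤ _
  have h1' : Module.finrank K D.H1 ≤ Module.finrank K d.H1 := h1
  lia

/-- A bundle with a section is a product of inverses of points. -/
theorem exists_points (n : ℕ) : ∀ (D : LineData m K), 0 < Module.finrank K D.H0 →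
    D.euler ≤ (trivialData (m := m) (A := K)).euler + n →
    ∃ l : List (ChartPoint m K), Cl.mk D = (l.map fun p => (Cl.point p)⁻¹).prod ∧
      D.euler = (trivialData (m := m) (A := K)).euler + l.length := by
  induction n with
  | zero =>
    intro D hD hle
    have := D.finite_H0
    obtain ⟨s, hs⟩ := Module.finrank_pos_iff_exists_ne_zero.1 hD
    by_cases hv : ∃ p, D.Vanishes p s.1
    · obtain ⟨p, hp⟩ := hv
      obtain ⟨F, -, he, f, χ, hf, hr, hχ⟩ := D.exists_twist_point p
      obtain ⟨x, hx⟩ := hr.ge ((hχ s).2 hp)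
      have := F.euler_trivial_le x fun h0 => hs (by rw [← hx, h0, map_zero])
      lia
    · obtain ⟨e⟩ := D.iso_of_not_vanishes s (not_exists.1 hv)
      exact ⟨[], (Cl.mk_eq_mk.2 ⟨e⟩).symm, by simp [euler_eq_of_iso e]⟩
  | succ n ih =>
    intro D hD hle
    have := D.finite_H0
    obtain ⟨s, hs⟩ := Module.finrank_pos_iff_exists_ne_zero.1 hD
    by_cases hv : ∃ p, D.Vanishes p s.1
    · obtain ⟨p, hp⟩ := hv
      obtain ⟨F, hF, he, f, χ, hf, hr, hχ⟩ := D.exists_twist_point p
      obtain ⟨x, hx⟩ := hr.ge ((hχ s).2 hp)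
      have := F.finite_H0
      obtain ⟨l, hl, hlen⟩ := ih F
        (Module.finrank_pos_iff_exists_ne_zero.2 ⟨x, fun h0 => hs (by rw [← hx, h0, map_zero])⟩)
        (by push_cast at hle ⊢; lia)
      refine ⟨p :: l, ?_, by simp; lia⟩
      rw [List.map_cons, List.prod_cons, ← hl, hF, mul_comm (Cl.mk D), inv_mul_cancel_left]
    · obtain ⟨e⟩ := D.iso_of_not_vanishes s (not_exists.1 hv)
      exact ⟨[], (Cl.mk_eq_mk.2 ⟨e⟩).symm, by simp [euler_eq_of_iso e]⟩

end LineData

end Fermat.Agent.Jac
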