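import Fermat.Agent.Jac.Field.Effective

/-!
# Twists that kill the first cohomology

`exists_reglue_surjective` shows that regluing by a high power makes the Cech map surjective.
-/

set_option autoImplicit false

universe u

open scoped Pointwise TensorProduct

namespace Fermat.Agent.Jac

namespace LineData

variable {k : Type u} [Field k] {m : CurveModel k} {A : Type u} [CommRing A] [Algebra k A]

/-- The bundle glued by a power of `s`. -/
noncomputable def twistData (n : ℕ) : LineData m A where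
  M0 := m.R0 A
  M1 := m.R1 A
  M01 := m.R01 A
  res0 := ⟨⟨fun r => m.ι1 A (m.sA A) ^ n * m.ι0 A r, fun r x => by simp [mul_add]⟩,
    fun r x => by simp [mul_left_comm]⟩
  res1 := ⟨(m.ι1 A).toAddMonoidHom.toAddHom, fun r x => map_mul (m.ι1 A) r x⟩
  span0 := Ideal.eq_top_of_isUnit_mem _ (Submodule.subset_span ⟨1, rfl⟩)
    (by simpa using (m.isUnit_ι1_sA A).pow n)
  span1 := (Ideal.eq_top_iff_one _).mpr (Submodule.subset_span ⟨1, map_one (m.ι1 A)⟩)

/-- Regluing a bundle by a power of `s`. -/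
noncomputable def reglue (D : LineData m A) (n : ℕ) : LineData m A :=
  { D with
    res0 := (m.ι1 A (m.sA A) ^ n) • D.res0
    span0 := by
      refine eq_top_iff.2 (D.span0 ▸ Submodule.span_le.2 ?_)
      rintro _ ⟨x, rfl⟩
      obtain ⟨v, hv⟩ := (m.isUnit_ι1_sA A).pow n
      have h : (↑v⁻¹ : m.R01 A) • ((m.ι1 A (m.sA A) ^ n) • D.res0) x = D.res0 x := by
        rw [LinearMap.smul_apply, smul_smul, ← hv, Units.inv_mul, one_smul]
      rw [SetLike.mem_coe, ← h]
      exact Submodule.smul_mem _ _ (Submodule.subset_span ⟨x, rfl⟩) }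

theorem isProduct_reglue (D : LineData m A) (n : ℕ) :
    IsProduct D (twistData n) (D.reglue n) := by
  refine ⟨(LinearMap.lsmul (m.R0 A) D.M0).flip, (LinearMap.lsmul (m.R1 A) D.M1).flip,
    (LinearMap.lsmul (m.R01 A) D.M01).flip, fun (x : D.M0) (r : m.R0 A) => ?_,
    fun (x : D.M1) (r : m.R1 A) => ?_, ?_, ?_⟩
  · show m.ι1 A (m.sA A) ^ n • D.res0 (r • x) = (m.ι1 A (m.sA A) ^ n * m.ι0 A r) • D.res0 x
    rw [D.res0.map_smulₛₗ, smul_smul]
  · show D.res1 (r • x) = m.ι1 A r • D.res1 x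
    exact D.res1.map_smulₛₗ _ _
  · exact eq_top_iff.2 fun x _ => Submodule.subset_span ⟨(x, (1 : m.R0 A)), one_smul _ x⟩
  · exact eq_top_iff.2 fun x _ => Submodule.subset_span ⟨(x, (1 : m.R1 A)), one_smul _ x⟩

theorem isBaseChangeData_twistData {A' : Type u} [CommRing A'] [Algebra k A'] (φ : A →ₐ[k] A')
    (n : ℕ) : (twistData (m := m) n).IsBaseChangeData φ (twistData n) := by
  have h0 : ∀ r, m.ι0 A' (m.map0 φ r) = m.map01 φ (m.ι0 A r) := fun r => by
    induction r using TensorProduct.induction_on with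
    | zero => simp
    | tmul a b => simp [CurveModel.ι0, CurveModel.map0, CurveModel.map01]
    | add x y hx hy => simp only [map_add, hx, hy]
  have h1 : ∀ r, m.ι1 A' (m.map1 φ r) = m.map01 φ (m.ι1 A r) := fun r => by
    induction r using TensorProduct.induction_on with
    | zero => simp
    | tmul a b => simp [CurveModel.ι1, CurveModel.map1, CurveModel.map01]
    | add x y hx hy => simp only [map_add, hx, hy]
  have hs : m.map1 φ (m.sA A) = m.sA A' := by simp [CurveModel.map1, CurveModel.sA]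
  have u0 : Ideal.span (Set.range (m.map0 φ)) = (⊤ : Ideal (m.R0 A')) :=
    (Ideal.eq_top_iff_one _).mpr (Submodule.subset_span ⟨1, map_one _⟩)
  have u1 : Ideal.span (Set.range (m.map1 φ)) = (⊤ : Ideal (m.R1 A')) :=
    (Ideal.eq_top_iff_one _).mpr (Submodule.subset_span ⟨1, map_one _⟩)
  refine ⟨(m.map0 φ).toSemilinearMap, (m.map1 φ).toSemilinearMap, (m.map01 φ).toSemilinearMap,
    fun (r : m.R0 A) => ?_, fun (r : m.R1 A) => h1 r,
    u0, u1⟩
  show m.ι1 A' (m.sA A') ^ n * m.ι0 A' (m.map0 φ r) =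
    m.map01 φ (m.ι1 A (m.sA A) ^ n * m.ι0 A r)
  rw [map_mul, map_pow, h0, ← h1, hs]

variable {K : Type u} [Field K] [Algebra k K]

/-- A sufficient twist has no first cohomology. -/
theorem exists_reglue_surjective (D : LineData m K) :
    ∃ n₀ : ℕ, ∀ n, n₀ ≤ n → Function.Surjective (D.reglue n).cechLin := by
  classical
  have := D.finite_H1
  obtain ⟨Y, hY⟩ := (Module.finite_def.1 this : (⊤ : Submodule K D.H1).FG)
  choose y hy using fun z : D.H1 => Submodule.mkQ_surjective (LinearMap.range D.cechLin) z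
  choose e w hw using fun z : D.H1 => exists_res_eq_pow_smul (m.surj1A K) D.res1 D.span1 (y z)
  refine ⟨∑ z ∈ Y, e z, fun n hn (v : D.M01) => ?_⟩
  have hts := m.ι0_tA_mul_ι1_sA K
  set T := m.ι0 K (m.tA K)
  set S := m.ι1 K (m.sA K) with hS
  let G : D.M01 →ₗ[K] D.M01 := (S ^ n • (LinearMap.id : D.M01 →ₗ[m.R01 K] D.M01)).restrictScalars K
  let L : Submodule K D.M01 := (LinearMap.range (D.reglue n).cechLin : Submodule K D.M01)
  have hD : LinearMap.range D.cechLin ≤ L.comap G := by
    rintro _ ⟨x, rfl⟩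
    let x1 : D.M1 := x.2
    refine ⟨(x.1, m.sA K ^ n • x1), ?_⟩
    show S ^ n • D.res0 x.1 - D.res1 (m.sA K ^ n • x1) = S ^ n • (D.res0 x.1 - D.res1 x1)
    rw [D.res1.map_smulₛₗ, map_pow, smul_sub]
  have hG : ∀ z ∈ Y, y z ∈ L.comap G := fun z hz => by
    have he : e z ≤ n := (Finset.single_le_sum (fun i _ => Nat.zero_le (e i)) hz).trans hn
    refine ⟨(0, -(m.sA K ^ (n - e z) • w z)), ?_⟩
    show S ^ n • D.res0 0 - D.res1 (-(m.sA K ^ (n - e z) • w z)) = S ^ n • y z
    rw [map_zero, smul_zero, zero_sub, map_neg, neg_neg, D.res1.map_smulₛₗ, map_pow, hw, smul_smul,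
      ← hS, ← pow_add, Nat.sub_add_cancel he]
  have htop : L.comap G = ⊤ := by
    refine eq_top_iff.2 fun x _ => ?_
    have hx : (LinearMap.range D.cechLin).mkQ x ∈ Submodule.span K (Y : Set D.H1) :=
      hY ▸ Submodule.mem_top
    have hle : Submodule.span K (Y : Set D.H1) ≤
        (L.comap G).map (LinearMap.range D.cechLin).mkQ :=
      Submodule.span_le.2 fun z hz => ⟨y z, hG z hz, hy z⟩
    obtain ⟨x', hx', he⟩ := hle hx
    have h2 : x' - x ∈ LinearMap.range D.cechLin := (Submodule.Quotient.eq _).1 he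
    simpa using sub_mem hx' (hD h2)
  have hv : T ^ n • v ∈ L.comap G := htop ▸ Submodule.mem_top
  rw [Submodule.mem_comap] at hv
  have hGv : G (T ^ n • v) = v := by
    show S ^ n • (T ^ n • v) = v
    rw [smul_smul, ← mul_pow, mul_comm S, hts, one_pow, one_smul]
  rw [hGv] at hv
  exact hv

end LineData

end Fermat.Agent.Jac
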